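import Mathlib
import Fermat.Prelude.Def_FLTPrelim_ModularRep
import Fermat.Prelude.Def_CuspForm_HeckeAlgebra
import Fermat.Agent.S22
import Fermat.Agent.S49.GoingUp
import Fermat.Agent.S49.LinAlg
import Fermat.Agent.S49.Normalize
import Fermat.Agent.Lib.Newform.H683.Eigen
import Fermat.Agent.Lib.Newform.H683.FinDim

/-!
# RIBET, forms-side interface (helper404)

Residual modularity of level `M` (Prelude `WeierstrassCurve.IsResiduallyModularOfLevel`) is
equivalent to the existence of a maximal ideal of the full weight-2 Hecke algebra of level `M`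
(Prelude `CuspForm.heckeAlgebra M 2 ∅`) containing `p` and all `T_ℓ - a_ℓ(W)`:

* `isResiduallyModularOfLevel_of_heckeResMod` (Deligne–Serre lifting);
* `heckeResMod_of_isResiduallyModularOfLevel` (eigencharacter of the eigenform);
* `isResiduallyModularOfLevel_iff`.

So a level-lowering argument only has to produce a *proper ideal* of the Hecke algebra of the
lower level.
-/

set_option autoImplicit false

open CuspForm CongruenceSubgroup ModularFormClass

namespace Fermat.Agent.Lib.Ribet.H404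

/-- The Hecke-algebra form of residual modularity of level `M`. -/
def HeckeResMod (W : WeierstrassCurve ℤ) (p M : ℕ) [NeZero M] : Prop :=
  ∃ 𝔫 : Ideal (heckeAlgebra M 2 (∅ : Set ℕ)), 𝔫.IsMaximal ∧
    ((p : ℕ) : heckeAlgebra M 2 (∅ : Set ℕ)) ∈ 𝔫 ∧
    ∀ (ℓ : ℕ) (hℓ : ℓ.Prime) (hℓM : ¬ ℓ ∣ M), W.IsGoodPrimeFor ℓ → ℓ ≠ p →
      (heckeAlgebra.T hℓ hℓM (Set.notMem_empty _) : heckeAlgebra M 2 (∅ : Set ℕ))
        - algebraMap ℤ _ (W.apOfModel ℓ) ∈ 𝔫

variable {M : ℕ} [NeZero M]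

/-- Every ring homomorphism from the Hecke algebra to `ℂ` takes values in `ℤ̄`. -/
theorem ringHom_mem_integralClosure (χ : heckeAlgebra M 2 (∅ : Set ℕ) →+* ℂ)
    (t : heckeAlgebra M 2 (∅ : Set ℕ)) : χ t ∈ integralClosure ℤ ℂ := by
  have : Module.Finite ℤ (heckeAlgebra M 2 (∅ : Set ℕ)) := Fermat.Agent.S22.result M 2 ∅
  have ht : IsIntegral ℤ t := Algebra.IsIntegral.isIntegral t
  exact ht.map χ.toIntAlgHom

/-- **Deligne–Serre lifting**: a maximal ideal of the Hecke algebra of level `M` containing `p`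
and the `T_ℓ - a_ℓ(W)` gives a normalised eigenform of level `M` congruent to `W`. -/
theorem isResiduallyModularOfLevel_of_heckeResMod {W : WeierstrassCurve ℤ} {p : ℕ}
    (h : HeckeResMod W p M) : W.IsResiduallyModularOfLevel p M := by
  classical
  obtain ⟨𝔫, h𝔫max, hp𝔫, hT⟩ := h
  have := Fermat.Agent.Lib.Newform.H683.finiteDimensional_cuspForm M 2
  have : 𝔫.IsPrime := h𝔫max.isPrime
  obtain ⟨g, χ, hg, hχ, hker⟩ := Fermat.Agent.S49.exists_eigenvector_ker_le
    (K := ℂ) (V := CuspForm (Gamma0 M) 2)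
    ((heckeAlgebra M 2 (∅ : Set ℕ)).val.toRingHom) Subtype.val_injective 𝔫
  let χ' : heckeAlgebra M 2 (∅ : Set ℕ) →+* integralClosure ℤ ℂ :=
    χ.codRestrict (integralClosure ℤ ℂ).toSubring (ringHom_mem_integralClosure χ)
  have hχ' : ∀ t, ((χ' t : integralClosure ℤ ℂ) : ℂ) = χ t := fun t => rfl
  have hker' : RingHom.ker χ' ≤ 𝔫 := by
    intro t ht
    apply hker
    rw [RingHom.mem_ker] at ht ⊢
    rw [← hχ', ht]
    rfl
  obtain ⟨𝔪', h𝔪', hover⟩ := Fermat.Agent.S49.exists_maximal_over χ' 𝔫 hker'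
  obtain ⟨f, hf, hfℓ⟩ := Fermat.Agent.S49.exists_normalized_eigenform g hg χ hχ
  refine ⟨f, 𝔪', hf, h𝔪', ?_, fun ℓ hℓ hgood hℓM hℓp => ?_⟩
  · have hp' := hover _ hp𝔫
    rw [map_natCast] at hp'
    exact hp'
  · refine ⟨χ' (heckeAlgebra.T hℓ hℓM (Set.notMem_empty _)), ?_, ?_⟩
    · rw [hχ', hfℓ ℓ hℓ hℓM]
    · have := hover _ (hT ℓ hℓ hℓM hgood hℓp)
      simpa using this

/-- A normalised eigenform is an eigenvector of every element of the Hecke algebra. -/
theorem exists_eigenvalue {f : CuspForm (Gamma0 M) 2} (hf : f.IsNormalizedEigenform)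
    (t : heckeAlgebra M 2 (∅ : Set ℕ)) :
    ∃ c : ℂ, (t : Module.End ℂ (CuspForm (Gamma0 M) 2)) f = c • f := by
  obtain ⟨t, ht⟩ := t
  show ∃ c : ℂ, t f = c • f
  induction ht using Algebra.adjoin_induction with
  | mem x hx =>
    rcases hx with ⟨ℓ, hℓ, hℓN, -, rfl⟩ | ⟨q, hqN, hq, -, rfl⟩
    · exact ⟨_, Fermat.Agent.Lib.Newform.H683.heckeTLin_eq_of_eigenform hf hℓ hℓN⟩
    · exact ⟨_, Fermat.Agent.Lib.Newform.H683.heckeULin_eq_of_eigenform hf hq hqN⟩
  | algebraMap r =>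
    refine ⟨(r : ℂ), ?_⟩
    rw [Algebra.algebraMap_eq_smul_one, LinearMap.smul_apply, Module.End.one_apply]
    exact (Int.cast_smul_eq_zsmul ℂ r f).symm
  | add x y _ _ hx hy =>
    obtain ⟨c, hc⟩ := hx
    obtain ⟨d, hd⟩ := hy
    exact ⟨c + d, by rw [LinearMap.add_apply, hc, hd, add_smul]⟩
  | mul x y _ _ hx hy =>
    obtain ⟨c, hc⟩ := hx
    obtain ⟨d, hd⟩ := hy
    exact ⟨d * c, by rw [Module.End.mul_apply, hd, map_smul, hc, smul_smul]⟩

/-- The eigenvalue of `t` on a normalised eigenform is the first coefficient of `t f`. -/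
theorem apply_eq_qCoeff_one_smul {f : CuspForm (Gamma0 M) 2} (hf : f.IsNormalizedEigenform)
    (t : heckeAlgebra M 2 (∅ : Set ℕ)) :
    (t : Module.End ℂ (CuspForm (Gamma0 M) 2)) f =
      qCoeff ⇑((t : Module.End ℂ (CuspForm (Gamma0 M) 2)) f) 1 • f := by
  obtain ⟨c, hc⟩ := exists_eigenvalue hf t
  have h1 : qCoeff ⇑((t : Module.End ℂ (CuspForm (Gamma0 M) 2)) f) 1 = c := by
    rw [hc, Fermat.Agent.Lib.Newform.H683.qCoeff_smul_cusp, hf.qCoeff_one, mul_one]
  rw [h1, hc]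

/-- The eigencharacter of a normalised eigenform. -/
noncomputable def eigenChar {f : CuspForm (Gamma0 M) 2} (hf : f.IsNormalizedEigenform) :
    heckeAlgebra M 2 (∅ : Set ℕ) →+* ℂ where
  toFun t := qCoeff ⇑((t : Module.End ℂ (CuspForm (Gamma0 M) 2)) f) 1
  map_one' := by
    show qCoeff ⇑(((1 : heckeAlgebra M 2 (∅ : Set ℕ)) :
      Module.End ℂ (CuspForm (Gamma0 M) 2)) f) 1 = 1
    rw [Subalgebra.coe_one, Module.End.one_apply, hf.qCoeff_one]
  map_mul' s t := by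
    obtain ⟨c, hc⟩ := exists_eigenvalue hf t
    have hc1 : qCoeff ⇑((t : Module.End ℂ (CuspForm (Gamma0 M) 2)) f) 1 = c := by
      rw [hc, Fermat.Agent.Lib.Newform.H683.qCoeff_smul_cusp, hf.qCoeff_one, mul_one]
    show qCoeff ⇑(((s * t : heckeAlgebra M 2 (∅ : Set ℕ)) :
      Module.End ℂ (CuspForm (Gamma0 M) 2)) f) 1 =
        qCoeff ⇑((s : Module.End ℂ (CuspForm (Gamma0 M) 2)) f) 1 *
          qCoeff ⇑((t : Module.End ℂ (CuspForm (Gamma0 M) 2)) f) 1
    rw [hc1, Subalgebra.coe_mul, Module.End.mul_apply, hc, map_smul,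
      Fermat.Agent.Lib.Newform.H683.qCoeff_smul_cusp, mul_comm]
  map_zero' := by
    show qCoeff ⇑(((0 : heckeAlgebra M 2 (∅ : Set ℕ)) :
      Module.End ℂ (CuspForm (Gamma0 M) 2)) f) 1 = 0
    rw [Subalgebra.coe_zero, LinearMap.zero_apply]
    have : (0 : CuspForm (Gamma0 M) 2) = (0 : ℂ) • f := by simp
    rw [this, Fermat.Agent.Lib.Newform.H683.qCoeff_smul_cusp, zero_mul]
  map_add' s t := by
    show qCoeff ⇑(((s + t : heckeAlgebra M 2 (∅ : Set ℕ)) :
      Module.End ℂ (CuspForm (Gamma0 M) 2)) f) 1 = _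
    rw [Subalgebra.coe_add, LinearMap.add_apply,
      Fermat.Agent.Lib.Newform.H683.qCoeff_add_cusp]

theorem eigenChar_apply {f : CuspForm (Gamma0 M) 2} (hf : f.IsNormalizedEigenform)
    (t : heckeAlgebra M 2 (∅ : Set ℕ)) :
    eigenChar hf t = qCoeff ⇑((t : Module.End ℂ (CuspForm (Gamma0 M) 2)) f) 1 := rfl

theorem eigenChar_T {f : CuspForm (Gamma0 M) 2} (hf : f.IsNormalizedEigenform) {ℓ : ℕ}
    (hℓ : ℓ.Prime) (hℓM : ¬ ℓ ∣ M) :
    eigenChar hf (heckeAlgebra.T hℓ hℓM (Set.notMem_empty _)) = qCoeff ⇑f ℓ := by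
  rw [eigenChar_apply, heckeAlgebra.coe_T,
    Fermat.Agent.Lib.Newform.H683.heckeTLin_eq_of_eigenform hf hℓ hℓM,
    Fermat.Agent.Lib.Newform.H683.qCoeff_smul_cusp, hf.qCoeff_one, mul_one]

theorem eigenChar_U {f : CuspForm (Gamma0 M) 2} (hf : f.IsNormalizedEigenform) {q : ℕ}
    (hq : q.Prime) (hqM : q ∣ M) :
    eigenChar hf (heckeAlgebra.U hq hqM (Set.notMem_empty _)) = qCoeff ⇑f q := by
  rw [eigenChar_apply, heckeAlgebra.coe_U,
    Fermat.Agent.Lib.Newform.H683.heckeULin_eq_of_eigenform hf hq hqM,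
    Fermat.Agent.Lib.Newform.H683.qCoeff_smul_cusp, hf.qCoeff_one, mul_one]

/-- The eigencharacter with values in `ℤ̄`. -/
noncomputable def eigenCharInt {f : CuspForm (Gamma0 M) 2} (hf : f.IsNormalizedEigenform) :
    heckeAlgebra M 2 (∅ : Set ℕ) →+* integralClosure ℤ ℂ :=
  (eigenChar hf).codRestrict (integralClosure ℤ ℂ).toSubring
    (ringHom_mem_integralClosure (eigenChar hf))

theorem coe_eigenCharInt {f : CuspForm (Gamma0 M) 2} (hf : f.IsNormalizedEigenform)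
    (t : heckeAlgebra M 2 (∅ : Set ℕ)) :
    ((eigenCharInt hf t : integralClosure ℤ ℂ) : ℂ) = eigenChar hf t := rfl

/-- Conversely, a congruent normalised eigenform gives a maximal ideal of the Hecke algebra. -/
theorem heckeResMod_of_isResiduallyModularOfLevel {W : WeierstrassCurve ℤ} {p : ℕ}
    (h : W.IsResiduallyModularOfLevel p M) : HeckeResMod W p M := by
  obtain ⟨f, 𝔪, hf, h𝔪, hp𝔪, hcong⟩ := h
  let _ : Algebra (heckeAlgebra M 2 (∅ : Set ℕ)) (integralClosure ℤ ℂ) :=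
    (eigenCharInt hf).toAlgebra
  have hint : Algebra.IsIntegral (heckeAlgebra M 2 (∅ : Set ℕ)) (integralClosure ℤ ℂ) :=
    ⟨fun x => (Algebra.IsIntegral.isIntegral (R := ℤ) x).tower_top⟩
  have hmax : (𝔪.comap (algebraMap (heckeAlgebra M 2 (∅ : Set ℕ)) (integralClosure ℤ ℂ))).IsMaximal :=
    Ideal.isMaximal_comap_of_isIntegral_of_isMaximal 𝔪
  refine ⟨_, hmax, ?_, fun ℓ hℓ hℓM hgood hℓp => ?_⟩
  · rw [Ideal.mem_comap, map_natCast]
    exact hp𝔪
  · rw [Ideal.mem_comap]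
    obtain ⟨a, ha, ham⟩ := hcong ℓ hℓ hgood hℓM hℓp
    have e : algebraMap (heckeAlgebra M 2 (∅ : Set ℕ)) (integralClosure ℤ ℂ)
        (heckeAlgebra.T hℓ hℓM (Set.notMem_empty _) - algebraMap ℤ _ (W.apOfModel ℓ)) =
        a - ((W.apOfModel ℓ : ℤ) : integralClosure ℤ ℂ) := by
      rw [map_sub]
      congr 1
      · apply Subtype.ext
        rw [ha]
        exact eigenChar_T hf hℓ hℓM
      · simp
    rw [e]
    exact ham

/-- **Forms-side interface of level lowering.** -/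
theorem isResiduallyModularOfLevel_iff {W : WeierstrassCurve ℤ} {p : ℕ} :
    W.IsResiduallyModularOfLevel p M ↔ HeckeResMod W p M :=
  ⟨heckeResMod_of_isResiduallyModularOfLevel, isResiduallyModularOfLevel_of_heckeResMod⟩

end Fermat.Agent.Lib.Ribet.H404
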