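import Fermat.Agent.Lib.Ribet.H404.ResMod
import Fermat.Prelude.Def_HeckeGalois_EichlerShimura

/-!
# RIBET, forms-side interface (helper404), module form

`heckeResMod_of_module`: let `X` be a nontrivial module over the Prelude polynomial Hecke algebra
`ModularCurve.HeckeAlg = ℤ[X_ℓ]` such that
* (factorisation) every polynomial in the `X_ℓ`, `ℓ ∈ PP`, which acts as `0` on
  `S₂(Γ₀(M))` (with `X_ℓ ↦ T_ℓ`) acts as `0` on `X`;
* `p` kills `X` and `X_ℓ` acts on `X` as `a_ℓ(W)` for `ℓ ∈ PP`;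
where `PP` is a set of primes not dividing `M` containing all test primes (`ℓ ∤ M`, `ℓ ≠ p`, `ℓ`
good for `W`).  Then `W` is residually modular of level `M`.
-/

set_option autoImplicit false

open CuspForm CongruenceSubgroup ModularFormClass ModularCurve

namespace Fermat.Agent.Lib.Ribet.H404

variable {M : ℕ} [NeZero M]

open Classical in
/-- Evaluation of the polynomial Hecke algebra in the Hecke algebra of weight 2 and level `M`:
`X_ℓ ↦ T_ℓ` for `ℓ ∤ M`, `X_ℓ ↦ U_ℓ` for `ℓ ∣ M`. -/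
noncomputable def formsEval (M : ℕ) [NeZero M] : HeckeAlg →ₐ[ℤ] heckeAlgebra M 2 (∅ : Set ℕ) :=
  MvPolynomial.aeval fun ℓ : Nat.Primes =>
    if h : (ℓ : ℕ) ∣ M then heckeAlgebra.U ℓ.2 h (Set.notMem_empty _)
    else heckeAlgebra.T ℓ.2 h (Set.notMem_empty _)

theorem formsEval_heckeGen_of_not_dvd {ℓ : ℕ} (hℓ : ℓ.Prime) (h : ¬ ℓ ∣ M) :
    formsEval M (heckeGen ⟨ℓ, hℓ⟩) = heckeAlgebra.T hℓ h (Set.notMem_empty _) :=
  (MvPolynomial.aeval_X (R := ℤ) _ (⟨ℓ, hℓ⟩ : Nat.Primes)).trans (dif_neg h)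

theorem formsEval_C (a : ℤ) :
    formsEval M (MvPolynomial.C a) = algebraMap ℤ (heckeAlgebra M 2 (∅ : Set ℕ)) a := by
  rw [← MvPolynomial.algebraMap_eq, AlgHom.commutes]

/-- **Module criterion for residual modularity.** -/
theorem heckeResMod_of_module {W : WeierstrassCurve ℤ} {p : ℕ}
    {X : Type*} [AddCommGroup X] [Module HeckeAlg X] [Nontrivial X]
    (PP : Set Nat.Primes)
    (hPP : ∀ (ℓ : ℕ) (hℓ : ℓ.Prime), ¬ ℓ ∣ M → W.IsGoodPrimeFor ℓ → ℓ ≠ p →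
      (⟨ℓ, hℓ⟩ : Nat.Primes) ∈ PP)
    (hfac : ∀ t ∈ Algebra.adjoin ℤ (heckeGen '' PP), formsEval M t = 0 → ∀ x : X, t • x = 0)
    (hp : ∀ x : X, (MvPolynomial.C (p : ℤ) : HeckeAlg) • x = 0)
    (hT : ∀ ℓ ∈ PP, ∀ x : X,
      (heckeGen ℓ - MvPolynomial.C (W.apOfModel (ℓ : ℕ)) : HeckeAlg) • x = 0) :
    HeckeResMod W p M := by
  classical
  have hfin : Module.Finite ℤ (heckeAlgebra M 2 (∅ : Set ℕ)) := Fermat.Agent.S22.result M 2 ∅
  -- the subalgebra generated by the test operators, and its image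
  set A : Subalgebra ℤ HeckeAlg := Algebra.adjoin ℤ (heckeGen '' PP) with hA
  set B : Subalgebra ℤ (heckeAlgebra M 2 (∅ : Set ℕ)) := A.map (formsEval M) with hB
  -- the ideal of `B` of the images of the annihilators
  let I : Ideal B :=
    { carrier := {b | ∃ t ∈ A, formsEval M t = (b : heckeAlgebra M 2 (∅ : Set ℕ)) ∧
        ∀ x : X, t • x = 0}
      add_mem' := by
        rintro b c ⟨s, hs, hsb, hs0⟩ ⟨t, ht, htc, ht0⟩
        refine ⟨s + t, A.add_mem hs ht, by rw [map_add, hsb, htc]; rfl, fun x => ?_⟩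
        rw [add_smul, hs0, ht0, add_zero]
      zero_mem' := ⟨0, A.zero_mem, by rw [map_zero]; rfl, fun x => zero_smul _ x⟩
      smul_mem' := by
        rintro ⟨c, hc⟩ b ⟨t, ht, htb, ht0⟩
        obtain ⟨s, hs, rfl⟩ := hc
        refine ⟨s * t, A.mul_mem hs ht, ?_, fun x => ?_⟩
        · rw [map_mul, htb]
          rfl
        · rw [mul_smul, ht0, smul_zero] }
  have hI : ∀ b : B, b ∈ I ↔ ∃ t ∈ A, formsEval M t = (b : heckeAlgebra M 2 (∅ : Set ℕ)) ∧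
      ∀ x : X, t • x = 0 := fun b => Iff.rfl
  have hIne : I ≠ ⊤ := by
    rw [Ideal.ne_top_iff_one, hI]
    rintro ⟨t, ht, ht1, ht0⟩
    have h1 : formsEval M (t - 1) = 0 := by
      rw [map_sub, ht1, map_one]
      simp
    obtain ⟨x, hx⟩ := exists_ne (0 : X)
    have h2 := hfac (t - 1) (A.sub_mem ht A.one_mem) h1 x
    rw [sub_smul, ht0, one_smul, zero_sub, neg_eq_zero] at h2
    exact hx h2
  obtain ⟨𝔫B, h𝔫B, hI𝔫B⟩ := Ideal.exists_le_maximal I hIne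
  have hint : Algebra.IsIntegral B (heckeAlgebra M 2 (∅ : Set ℕ)) :=
    ⟨fun x => (Algebra.IsIntegral.isIntegral (R := ℤ) x).tower_top⟩
  obtain ⟨𝔫, h𝔫, h𝔫c⟩ := Ideal.exists_ideal_over_maximal_of_isIntegral
    (S := heckeAlgebra M 2 (∅ : Set ℕ)) 𝔫B (by
      intro b hb
      rw [RingHom.mem_ker] at hb
      have : b = 0 := Subtype.ext (by simpa using hb)
      rw [this]
      exact 𝔫B.zero_mem)
  have key : ∀ t ∈ A, (∀ x : X, t • x = 0) → formsEval M t ∈ 𝔫 := by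
    intro t ht ht0
    have hb : formsEval M t ∈ B := ⟨t, ht, rfl⟩
    have h1 : (⟨formsEval M t, hb⟩ : B) ∈ I := (hI _).mpr ⟨t, ht, rfl, ht0⟩
    have h2 := hI𝔫B h1
    rw [← h𝔫c, Ideal.mem_comap] at h2
    exact h2
  refine ⟨𝔫, h𝔫, ?_, fun ℓ hℓ hℓM hgood hℓp => ?_⟩
  · have := key (MvPolynomial.C (p : ℤ)) (A.algebraMap_mem (p : ℤ)) hp
    rw [formsEval_C] at this
    simpa using this
  · have hmem : (⟨ℓ, hℓ⟩ : Nat.Primes) ∈ PP := hPP ℓ hℓ hℓM hgood hℓp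
    have hgen : heckeGen ⟨ℓ, hℓ⟩ ∈ A := Algebra.subset_adjoin ⟨_, hmem, rfl⟩
    have := key (heckeGen ⟨ℓ, hℓ⟩ - MvPolynomial.C (W.apOfModel ℓ))
      (A.sub_mem hgen (A.algebraMap_mem _)) (hT _ hmem)
    rw [map_sub, formsEval_heckeGen_of_not_dvd hℓ hℓM, formsEval_C] at this
    exact this

/-- Residual modularity from a Hecke module. -/
theorem isResiduallyModularOfLevel_of_module {W : WeierstrassCurve ℤ} {p : ℕ}
    {X : Type*} [AddCommGroup X] [Module HeckeAlg X] [Nontrivial X]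
    (PP : Set Nat.Primes)
    (hPP : ∀ (ℓ : ℕ) (hℓ : ℓ.Prime), ¬ ℓ ∣ M → W.IsGoodPrimeFor ℓ → ℓ ≠ p →
      (⟨ℓ, hℓ⟩ : Nat.Primes) ∈ PP)
    (hfac : ∀ t ∈ Algebra.adjoin ℤ (heckeGen '' PP), formsEval M t = 0 → ∀ x : X, t • x = 0)
    (hp : ∀ x : X, (MvPolynomial.C (p : ℤ) : HeckeAlg) • x = 0)
    (hT : ∀ ℓ ∈ PP, ∀ x : X,
      (heckeGen ℓ - MvPolynomial.C (W.apOfModel (ℓ : ℕ)) : HeckeAlg) • x = 0) :
    W.IsResiduallyModularOfLevel p M :=
  isResiduallyModularOfLevel_of_heckeResMod (heckeResMod_of_module PP hPP hfac hp hT)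

end Fermat.Agent.Lib.Ribet.H404
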